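import Fermat.Agent.FF2.S32Sat.SatZ
import Fermat.Agent.FF2.S32M.Defs
import Fermat.Agent.Jac.HeckeCommUncond

/-!
# S32M board, leaf L2 (SAT-Z) in helper11's literal

`exists_sat_JZero` : for `π : heckeAlgebra N 2 S →+* T` (`T` local, complete, `p ∈ 𝔪_T`) there is
`c` such that every `h ∈ ℤ[x_i : i ∉ S]` whose Hecke evaluation
`heckeEvalBar _ (rename val h)` kills `J₀(N)[p^m]` satisfies
`aeval (piT hNS π) h ∈ 𝔪_T ^ (m - c)`.

Proof: `S32Sat.exists_sat_int` (Kummer maps `(K)` + (T1)(a) `lamPsiHyp` + the saturation constant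
`Pseudo.exists_sat`), rewritten through `heckeModuleBar_smul_def`.
-/

set_option autoImplicit false
set_option linter.style.haveILetI false
set_option linter.unusedSectionVars false

open ModularCurve CuspForm Fermat.Agent.FF2.S32M

namespace Fermat.Agent.FF2.S32Z

/-- **L2 (SAT-Z).** -/
theorem exists_sat_JZero {p N : ℕ} [NeZero N] {S : Finset ℕ} {T : Type} [CommRing T]
    [IsLocalRing T] [IsAdicComplete (IsLocalRing.maximalIdeal T) T] (hp : p.Prime)
    (hpT : (p : T) ∈ IsLocalRing.maximalIdeal T) (hNS : ∀ q : ℕ, q.Prime → q ∣ N → q ∈ S)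
    (π : heckeAlgebra N 2 (↑S : Set ℕ) →+* T) :
    ∃ c : ℕ, ∀ (m : ℕ) (h : MvPolynomial (PIdx S) ℤ),
      (∀ x : JZero N, (p : ℤ) ^ m • x = 0 →
        heckeEvalBar (Fermat.Agent.Jac.heckeOperatorsCommuteBar N)
          (MvPolynomial.rename (fun i : PIdx S => i.1) h) x = 0) →
      MvPolynomial.aeval (piT hNS π) h ∈ IsLocalRing.maximalIdeal T ^ (m - c) := by
  obtain ⟨c, hc⟩ := Fermat.Agent.FF2.S32Sat.exists_sat_int hp hNS (IsLocalRing.maximalIdeal T) hpT π
  refine ⟨c, fun m h hkill => ?_⟩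
  have h1 := hc m h (by
    intro x hx
    rw [heckeModuleBar_smul_def (Fermat.Agent.Jac.heckeOperatorsCommuteBar N)]
    exact hkill x hx)
  exact h1

end Fermat.Agent.FF2.S32Z
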